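/-
T16 (S16) package U3b, TEAM B hedge "zeta-ring norm route" (helper73), file 2: the abstract theorem.

`false_of_conjugates_three`: a finite family `Φ x` of holomorphic, bounded, `e`-periodic functions on
`ℍ`, permuted by the weight-6 action of `SL(2,ℤ)`, whose `𝕢 e`-expansions have coefficients in a
subring `R ⊆ ℂ` and whose reductions along `ρ : R →+* K` (`K` a field of characteristic `3`)
multiply to `(a S̄)(a S̄ + κ)^m` (in `q = t^e`), `a ≠ 0`, cannot exist.
(The norm `∏ Φ x` is a level one form, so its reduction is a polynomial in `Δ̄ = S̄ - S̄³`: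
helper30 `exists_polynomial_of_small`; contradiction by helper32 `false_of_AS`.)
-/
import Mathlib
import Fermat.Agent.S16.U2Seven.Main
import Fermat.Agent.S16.LocalRingSmall
import Fermat.Agent.S16.TraceCases.LevelOneAS

set_option autoImplicit false

noncomputable section

namespace Fermat.Agent.S16.U3b.NormZeta

open UpperHalfPlane ModularForm PowerSeries Function
open Fermat.Agent.S23 Fermat.Agent.S20.Puiseux Fermat.Agent.S20.LevelOneWH
open Fermat.Agent.S16.U2Seven
open scoped MatrixGroups ModularForm Manifold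

/-! ### `stretch` and `map` -/

theorem map_stretch {A B : Type*} [Semiring A] [Semiring B] (f : A →+* B) (e : ℕ)
    (P : PowerSeries A) : (stretch e P).map f = stretch e (P.map f) := by
  ext m
  rw [coeff_map, coeff_stretch, coeff_stretch]
  split_ifs
  · rw [coeff_map]
  · exact map_zero f

theorem stretch_injective {A : Type*} [Semiring A] (e : ℕ) (he : 0 < e) :
    Function.Injective (stretch e : PowerSeries A → PowerSeries A) := by
  intro P Q h
  ext m
  have := congrArg (coeff (e * m)) h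
  rwa [coeff_stretch_mul e he, coeff_stretch_mul e he] at this

theorem map_subtype_injective (R : Subring ℂ) :
    Function.Injective (PowerSeries.map R.subtype) := by
  intro P Q h
  ext m
  have := congrArg (coeff m) h
  rw [coeff_map, coeff_map] at this
  exact this

/-- `S̄ = ∑ σ₁(n) qⁿ` over `K` -/
def SbarOf (K : Type*) [CommRing K] : PowerSeries K :=
  (TraceCases.sigSeries 1).map (Int.castRingHom K)

theorem map_three_eq_zero {K : Type*} [CommRing K] (h3 : (3 : K) = 0) :
    PowerSeries.map (Int.castRingHom K) (3 : PowerSeries ℤ) = 0 := by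
  rw [map_ofNat]
  have : (3 : PowerSeries K) = C (3 : K) := (map_ofNat C 3).symm
  rw [this, h3, map_zero]

/-- `Δ̄ = S̄ - S̄³` in characteristic `3` -/
theorem deltaBarOf_eq {K : Type*} [CommRing K] (h3 : (3 : K) = 0) :
    Rl.DeltaBarOf K = SbarOf K - SbarOf K ^ 3 := by
  rw [Rl.DeltaBarOf_eq_gens]
  show L1.DeltaZ.map (Int.castRingHom K) = _
  obtain ⟨W, hW⟩ := TraceCases.delta_eq_sub_cube_add TraceCases.e4_sq_eq_e8 L1.DeltaZ
    (by rw [TraceCases.e4_eq_E4Z, TraceCases.e6_eq_E6Z]; exact L1.DeltaZ_identity)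
  rw [hW, SbarOf]
  simp only [map_add, map_sub, map_mul, map_pow]
  rw [map_three_eq_zero h3, zero_mul, add_zero]

theorem false_of_conjugates_three (R : Subring ℂ) {K : Type*} [Field K] (ρ : R →+* K)
    (h3 : (3 : K) = 0)
    {ι : Type*} [Fintype ι] (e : ℕ) (he : 0 < e)
    (Φ : ι → ℍ → ℂ) (hΦ : ∀ x, IsPuiseux e (Φ x))
    (hperm : ∀ γ : SL(2, ℤ), ∃ σ : Equiv.Perm ι, ∀ x z,
        Φ x (γ • z) = denom γ z ^ (6 : ℤ) * Φ (σ x) z)
    (A : ι → PowerSeries R) (hA : ∀ x, qExpansion (e : ℝ) (Φ x) = (A x).map R.subtype)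
    (a κ : K) (ha : a ≠ 0) (m : ℕ)
    (hprod : ∏ x, (A x).map ρ =
      stretch e ((C a * SbarOf K) * (C a * SbarOf K + C κ) ^ m)) : False := by
  classical
  set n := Fintype.card ι with hn
  set N : ℍ → ℂ := ∏ x, Φ x with hN
  have hNe : IsPuiseux e N := (pSubring e).prod_mem (fun x _ => hΦ x)
  have hNsmul : ∀ (γ : SL(2, ℤ)) (z : ℍ),
      N (γ • z) = denom γ z ^ ((6 * n : ℕ) : ℤ) * N z := by
    intro γ z
    obtain ⟨σ, hσ⟩ := hperm γ
    simp only [hN, Finset.prod_apply]
    rw [Finset.prod_congr rfl (fun x _ => hσ x z), Finset.prod_mul_distrib,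
      Finset.prod_const, Equiv.prod_comp σ (fun x => Φ x z), Finset.card_univ, ← hn]
    congr 1
    rw [zpow_natCast, ← zpow_natCast (denom γ z ^ (6 : ℤ)) n, ← zpow_mul]
    norm_cast
  have hNinv : ∀ γ : SL(2, ℤ), N ∣[((6 * n : ℕ) : ℤ)] γ = N :=
    fun γ => (slash_eq_iff_smul γ).mpr (hNsmul γ)
  have hNmf : IsMF 𝒮ℒ ((6 * n : ℕ) : ℤ) N := ⟨mkLevelOne _ N hNe.mdiff hNinv hNe.bdd, rfl⟩
  have hN1 : IsPuiseux 1 N := isPuiseux_one_of_isMF hNmf
  -- expansion at period `e`
  have hNexp : qExpansion (e : ℝ) N = (∏ x, A x).map R.subtype := by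
    have h1 : N = ((∏ x, (⟨Φ x, hΦ x⟩ : pSubring e) : pSubring e) : ℍ → ℂ) := by
      rw [hN, SubmonoidClass.coe_finsetProd]
    have h2 := map_prod (qHom e he) (fun x => (⟨Φ x, hΦ x⟩ : pSubring e)) Finset.univ
    rw [qHom_apply, ← h1] at h2
    rw [h2, map_prod]
    exact Finset.prod_congr rfl (fun x _ => hA x)
  have hNq : qExpansion (e : ℝ) N = stretch e (qExpansion (1 : ℝ) N) :=
    qExpansion_of_one hN1 e he
  have hR : ∀ i : ℕ, (qExpansion 1 N).coeff i ∈ Set.range R.subtype := by
    intro i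
    have := congrArg (coeff (e * i)) (hNq.symm.trans hNexp)
    rw [coeff_stretch_mul e he, coeff_map] at this
    exact ⟨_, this.symm⟩
  have h240 : (240 : K) = 0 := by
    have : (240 : K) = 3 * 80 := by norm_num
    rw [this, h3, zero_mul]
  have h504 : (504 : K) = 0 := by
    have : (504 : K) = 3 * 168 := by norm_num
    rw [this, h3, zero_mul]
  have h2 : (2 : K) ≠ 0 := by
    have : (2 : K) = 3 - 1 := by norm_num
    rw [this, h3, zero_sub]
    exact neg_ne_zero.mpr one_ne_zero
  obtain ⟨F, Pol, hF, -, hPol⟩ := Rl.exists_polynomial_of_small R.subtype ρ h240 h504 (6 * n) N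
    hNmf (fun i _ => hR i)
  have hFA : stretch e F = ∏ x, A x := by
    apply map_subtype_injective R
    rw [map_stretch, hF, ← hNq, hNexp]
  have hFred : F.map ρ = (C a * SbarOf K) * (C a * SbarOf K + C κ) ^ m := by
    apply stretch_injective e he
    rw [← map_stretch, hFA, map_prod, hprod]
  have hS0 : coeff 0 (SbarOf K) = 0 := by simp [SbarOf]
  have hS1 : coeff 1 (SbarOf K) = 1 := by simp [SbarOf]
  refine TraceCases.false_of_AS (k := K) h2 (SbarOf K) hS0 hS1 a κ ha m Pol ?_
  rw [← deltaBarOf_eq h3, ← hPol, hFred]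

end Fermat.Agent.S16.U3b.NormZeta
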