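/-
T16 (S16) package U3b, TEAM B hedge "zeta-ring norm route" (helper73), file 1: the coefficient ring.

`threeRing : Subring ℂ` is the ring of complex numbers `z` such that `m * z` is an algebraic integer
for some natural number `m` prime to `3`.  It contains `ℤ`, the inverses of integers prime to `3`
and all roots of unity; `1/3 ∉ threeRing`, hence there is a maximal ideal containing `3`, whose
residue field has characteristic `3`.
Mathlib only.
-/
import Mathlib

set_option autoImplicit false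

namespace Fermat.Agent.S16.U3b.NormZeta

/-- complex numbers `z` with `m * z` an algebraic integer for some `m : ℕ` prime to `3` -/
def threeRing : Subring ℂ where
  carrier := {z | ∃ m : ℕ, ¬ 3 ∣ m ∧ IsIntegral ℤ ((m : ℂ) * z)}
  mul_mem' := by
    rintro a b ⟨m, hm, ha⟩ ⟨n, hn, hb⟩
    refine ⟨m * n, ?_, ?_⟩
    · intro h
      rcases (Nat.Prime.dvd_mul Nat.prime_three).1 h with h | h
      · exact hm h
      · exact hn h
    have : ((m * n : ℕ) : ℂ) * (a * b) = ((m : ℂ) * a) * ((n : ℂ) * b) := by push_cast; ring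
    rw [this]
    exact ha.mul hb
  one_mem' := ⟨1, by norm_num, by simpa using isIntegral_one⟩
  add_mem' := by
    rintro a b ⟨m, hm, ha⟩ ⟨n, hn, hb⟩
    refine ⟨m * n, ?_, ?_⟩
    · intro h
      rcases (Nat.Prime.dvd_mul Nat.prime_three).1 h with h | h
      · exact hm h
      · exact hn h
    have : ((m * n : ℕ) : ℂ) * (a + b) = (n : ℂ) * ((m : ℂ) * a) + (m : ℂ) * ((n : ℂ) * b) := by
      push_cast; ring
    rw [this]
    have hn' : IsIntegral ℤ (n : ℂ) := by
      have := isIntegral_algebraMap (R := ℤ) (A := ℂ) (x := (n : ℤ))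
      simpa using this
    have hm' : IsIntegral ℤ (m : ℂ) := by
      have := isIntegral_algebraMap (R := ℤ) (A := ℂ) (x := (m : ℤ))
      simpa using this
    exact (hn'.mul ha).add (hm'.mul hb)
  zero_mem' := ⟨1, by norm_num, by simpa using isIntegral_zero⟩
  neg_mem' := by
    rintro a ⟨m, hm, ha⟩
    refine ⟨m, hm, ?_⟩
    rw [mul_neg]
    exact ha.neg

theorem mem_threeRing {z : ℂ} :
    z ∈ threeRing ↔ ∃ m : ℕ, ¬ 3 ∣ m ∧ IsIntegral ℤ ((m : ℂ) * z) := Iff.rfl

/-- algebraic integers lie in `threeRing` -/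
theorem mem_threeRing_of_isIntegral {z : ℂ} (hz : IsIntegral ℤ z) : z ∈ threeRing :=
  ⟨1, by norm_num, by simpa using hz⟩

/-- roots of unity lie in `threeRing` -/
theorem mem_threeRing_of_pow_eq_one {z : ℂ} {n : ℕ} (hn : 0 < n) (hz : z ^ n = 1) :
    z ∈ threeRing :=
  mem_threeRing_of_isIntegral (IsIntegral.of_pow hn (by rw [hz]; exact isIntegral_one))

/-- inverses of natural numbers prime to `3` lie in `threeRing` -/
theorem inv_natCast_mem_threeRing {m : ℕ} (hm : ¬ 3 ∣ m) : ((m : ℂ))⁻¹ ∈ threeRing := by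
  refine ⟨m, hm, ?_⟩
  have hm0 : (m : ℂ) ≠ 0 := by
    have : m ≠ 0 := fun h => by simp [h] at hm
    exact_mod_cast this
  rw [mul_inv_cancel₀ hm0]
  exact isIntegral_one

/-- inverses of integers prime to `3` lie in `threeRing` -/
theorem inv_intCast_mem_threeRing {c : ℤ} (hc : ¬ (3 : ℤ) ∣ c) : ((c : ℂ))⁻¹ ∈ threeRing := by
  have hodd : ¬ 3 ∣ c.natAbs := by
    intro h
    apply hc
    have : ((3 : ℕ) : ℤ) ∣ c := Int.natCast_dvd.mpr h
    simpa using this
  have h := inv_natCast_mem_threeRing hodd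
  rcases Int.natAbs_eq c with h1 | h1
  · have : (c : ℂ) = (c.natAbs : ℂ) := by
      have : (c : ℂ) = ((c.natAbs : ℤ) : ℂ) := by rw [← h1]
      rw [this, Int.cast_natCast]
    rw [this]; exact h
  · have : (c : ℂ) = -(c.natAbs : ℂ) := by
      have : (c : ℂ) = ((-(c.natAbs : ℤ) : ℤ) : ℂ) := by rw [← h1]
      rw [this, Int.cast_neg, Int.cast_natCast]
    rw [this, inv_neg]; exact threeRing.neg_mem h

/-- `1/3` is not in `threeRing` -/
theorem inv_three_not_mem_threeRing : (3 : ℂ)⁻¹ ∉ threeRing := by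
  rintro ⟨m, hm, h⟩
  have h1 : ((m : ℂ) * (3 : ℂ)⁻¹) = algebraMap ℚ ℂ ((m : ℚ) / 3) := by
    simp [div_eq_mul_inv]
  rw [h1, isIntegral_algebraMap_iff (algebraMap ℚ ℂ).injective] at h
  obtain ⟨y, hy⟩ := (IsIntegrallyClosed.isIntegral_iff (R := ℤ) (K := ℚ)).1 h
  have h2 : ((3 * y : ℤ) : ℚ) = ((m : ℤ) : ℚ) := by
    push_cast
    have : ((algebraMap ℤ ℚ) y : ℚ) = (y : ℚ) := rfl
    rw [this] at hy
    rw [hy]; field_simp
  have h3 : (3 * y : ℤ) = (m : ℤ) := by exact_mod_cast h2
  apply hm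
  have : ((3 : ℕ) : ℤ) ∣ (m : ℤ) := ⟨y, by rw [← h3]; norm_num⟩
  exact Int.natCast_dvd_natCast.mp this

/-- `3` is not a unit of `threeRing` -/
theorem three_not_isUnit : ¬ IsUnit (3 : threeRing) := by
  intro h
  obtain ⟨u, hu⟩ := h.exists_right_inv
  apply inv_three_not_mem_threeRing
  have h1 : (3 : ℂ) * (u : ℂ) = 1 := by
    have := congrArg (fun x : threeRing => (x : ℂ)) hu
    simp only [Subring.coe_mul, OneMemClass.coe_one] at this
    exact this
  have : (3 : ℂ)⁻¹ = (u : ℂ) := by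
    have h3 : (3 : ℂ) ≠ 0 := by norm_num
    field_simp
    linear_combination -h1
  rw [this]
  exact u.2

/-- there is a maximal ideal of `threeRing` containing `3` -/
theorem exists_maximal_three : ∃ M : Ideal threeRing, M.IsMaximal ∧ (3 : threeRing) ∈ M := by
  have hne : Ideal.span {(3 : threeRing)} ≠ ⊤ := by
    rw [Ne, Ideal.span_singleton_eq_top]
    exact three_not_isUnit
  obtain ⟨M, hM, hle⟩ := Ideal.exists_le_maximal _ hne
  exact ⟨M, hM, hle (Ideal.subset_span rfl)⟩

end Fermat.Agent.S16.U3b.NormZeta
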