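/-
T16 (S16) package U3b, TEAM B hedge "zeta-ring norm route" (helper73), file 3: the glue,
`noConstInt_three_two_zeta : p % 3 = 2 → NoConstInt p 3 2`.

For `G ≡ c₀ mod 9` on `Γ₀(p)` put `G' = G / c₀`, `g x = conj 2 p G' x` (`x ∈ Idx p`) and
`Φ x = ((g x)³ - E₆)/9`.  The `q^(1/p)`-expansions of the `Φ x` have coefficients in `threeRing`
and reduce to `-S̄(t^p)` (`x = none`) resp. `κ̄ - S̄(t^p)` (`x = some j`) in the residue field of a
maximal ideal over `3`; apply `false_of_conjugates_three`.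
-/
import Mathlib
import Fermat.Prelude.Thm_CongruenceSubgroup_one_mem_strictPeriods_Gamma0
import Fermat.Agent.S16.NoConst
import Fermat.Agent.S16.Conj.Expand
import Fermat.Agent.S16.U2Seven.Final
import Fermat.Agent.S16.U3b.NormZeta.Ring
import Fermat.Agent.S16.U3b.NormZeta.Main

set_option autoImplicit false

noncomputable section

namespace Fermat.Agent.S16.U3b.NormZeta

open UpperHalfPlane ModularForm PowerSeries Function CongruenceSubgroup
open Fermat.Agent.S23 Fermat.Agent.S20.Puiseux Fermat.Agent.S20.LevelOneWH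
open Fermat.Agent.S16.U2Seven
open scoped MatrixGroups ModularForm Manifold

/-! ### `stretch` is `PowerSeries.expand` -/

theorem stretch_eq_expand {A : Type*} [CommRing A] (e : ℕ) (he : e ≠ 0) (P : PowerSeries A) :
    stretch e P = PowerSeries.expand e he P := by
  ext m
  rw [coeff_stretch, PowerSeries.coeff_expand]

theorem stretch_mul' {A : Type*} [CommRing A] (e : ℕ) (he : e ≠ 0) (P Q : PowerSeries A) :
    stretch e (P * Q) = stretch e P * stretch e Q := by
  rw [stretch_eq_expand e he, stretch_eq_expand e he, stretch_eq_expand e he, map_mul]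

theorem stretch_pow' {A : Type*} [CommRing A] (e : ℕ) (he : e ≠ 0) (P : PowerSeries A) (n : ℕ) :
    stretch e (P ^ n) = stretch e P ^ n := by
  rw [stretch_eq_expand e he, stretch_eq_expand e he, map_pow]

theorem stretch_C' {A : Type*} [CommRing A] (e : ℕ) (he : e ≠ 0) (a : A) :
    stretch e (C a : PowerSeries A) = C a := by
  rw [stretch_eq_expand e he, PowerSeries.expand_C]

/-! ### The weight-6 function `Φ(g) = (g³ - E₆)/9` -/

/-- `Φ(g) = (g³ - E₆)/9`, of weight `6` if `g` has weight `2` -/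
def Phi (g : ℍ → ℂ) : ℍ → ℂ := (9 : ℂ)⁻¹ • (g ^ 3 - (E₆ : ℍ → ℂ))

theorem nine_mul_Phi (g : ℍ → ℂ) : (9 : ℍ → ℂ) * Phi g = g ^ 3 - (E₆ : ℍ → ℂ) := by
  funext z
  simp only [Phi, Pi.mul_apply, Pi.smul_apply, smul_eq_mul, Pi.ofNat_apply]
  rw [← mul_assoc, mul_inv_cancel₀ (by norm_num : (9 : ℂ) ≠ 0), one_mul]

theorem isPuiseux_Phi {e : ℕ} {g : ℍ → ℂ} (hg : IsPuiseux e g) : IsPuiseux e (Phi g) := by
  unfold Phi
  refine IsPuiseux.smul ?_ _
  have hg' : g ∈ pSubring e := hg
  have h6 : (E₆ : ℍ → ℂ) ∈ pSubring e := isPuiseux_E6 e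
  exact (pSubring e).sub_mem ((pSubring e).pow_mem hg' 3) h6

theorem Phi_smul {g g' : ℍ → ℂ} (γ : SL(2, ℤ)) (z : ℍ)
    (h : g (γ • z) = denom γ z ^ (2 : ℤ) * g' z) :
    Phi g (γ • z) = denom γ z ^ (6 : ℤ) * Phi g' z := by
  simp only [Phi, Pi.smul_apply, Pi.sub_apply, Pi.pow_apply, smul_eq_mul]
  rw [h, modularForm_smul E₆ γ z]
  have h2 : denom γ z ^ (2 : ℤ) = denom γ z ^ 2 := zpow_ofNat _ 2
  have h6 : denom γ z ^ (6 : ℤ) = denom γ z ^ 6 := zpow_ofNat _ 6
  rw [h2, h6]
  ring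

/-- the integer series `∑ σ₅(n) qⁿ`, stretched, with coefficients in any ring -/
def s5 (A : Type*) [CommRing A] (e : ℕ) : PowerSeries A :=
  stretch e ((TraceCases.sigSeries 5).map (Int.castRingHom A))

theorem qExpansion_E6_stretch (e : ℕ) (he : 0 < e) :
    qExpansion (e : ℝ) (E₆ : ℍ → ℂ) = 1 - 504 * s5 ℂ e := by
  rw [qExpansion_of_one (isPuiseux_one_of_isMF isMF_E6) e he, L1.qExpansion_E6,
    ← TraceCases.e6_eq_E6Z, TraceCases.e6, map_sub, map_one, map_mul, stretch_sub,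
    stretch_one e he, s5]
  have : PowerSeries.map (Int.castRingHom ℂ) (C (504 : ℤ)) = C (504 : ℂ) := by
    rw [PowerSeries.map_C]; simp
  rw [this, stretch_C_mul, ← ofNat_eq_C 504]

theorem nine_mul_qExpansion_Phi {e : ℕ} (he : 0 < e) {g : ℍ → ℂ} (hg : IsPuiseux e g) :
    9 * qExpansion (e : ℝ) (Phi g) = qExpansion (e : ℝ) g ^ 3 - (1 - 504 * s5 ℂ e) := by
  set gS : pSubring e := ⟨g, hg⟩
  set PS : pSubring e := ⟨Phi g, isPuiseux_Phi hg⟩
  have h9 : (9 : pSubring e) * PS = gS ^ 3 - E6S e := Subtype.ext (nine_mul_Phi g)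
  have h := congrArg (qHom e he) h9
  simp only [map_sub, map_pow, map_mul, map_ofNat] at h
  have h6 : qHom e he (E6S e) = 1 - 504 * s5 ℂ e := qExpansion_E6_stretch e he
  rw [h6] at h
  exact h

/-! ### The series with coefficients in a subring -/

section Series

variable (R : Subring ℂ)

/-- the model of the expansion of `Φ(g)` when the expansion of `g` is `u (1 + 9 H)` and
`9 κ = u³ - 1` -/
def Aser (e : ℕ) (u κ : R) (H : PowerSeries R) : PowerSeries R :=
  C κ + C (u ^ 3) * (3 * H + 27 * H ^ 2 + 81 * H ^ 3) + 56 * s5 R e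

theorem map_subtype_s5 (e : ℕ) : (s5 R e).map R.subtype = s5 ℂ e := by
  rw [s5, s5, map_stretch]
  congr 1

theorem qExpansion_Phi_eq {e : ℕ} (he : 0 < e) {g : ℍ → ℂ} (hg : IsPuiseux e g)
    (u κ : R) (H : PowerSeries R)
    (hP : qExpansion (e : ℝ) g = C (u : ℂ) * (1 + 9 * H.map R.subtype))
    (hκ : (9 : ℂ) * (κ : ℂ) = (u : ℂ) ^ 3 - 1) :
    qExpansion (e : ℝ) (Phi g) = (Aser R e u κ H).map R.subtype := by
  have h9ne : (9 : PowerSeries ℂ) ≠ 0 := by
    rw [ofNat_eq_C 9]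
    intro h0
    have := congrArg (coeff 0) h0
    simp at this
  apply mul_left_cancel₀ h9ne
  rw [nine_mul_qExpansion_Phi he hg, hP, Aser]
  simp only [map_add, map_mul, map_pow, map_ofNat, map_subtype_s5, PowerSeries.map_C]
  have hκ' : (9 : PowerSeries ℂ) * C (κ : ℂ) = C (u : ℂ) ^ 3 - 1 := by
    rw [ofNat_eq_C 9, ← map_mul, hκ, map_sub, map_pow, map_one]
  simp only [Subring.subtype_apply]
  linear_combination (-1 : PowerSeries ℂ) * hκ'

end Series

/-! ### Reduction to characteristic `3` -/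

section Reduction

theorem three_dvd_pow_five_sub (d : ℤ) : (3 : ℤ) ∣ d ^ 5 - d := by
  have h : ∀ x : ZMod 3, x ^ 5 - x = 0 := by decide
  have := h (d : ZMod 3)
  have h2 : ((d ^ 5 - d : ℤ) : ZMod 3) = 0 := by
    push_cast
    exact this
  exact (ZMod.intCast_zmod_eq_zero_iff_dvd _ 3).mp h2

/-- `S₅ = S₁ + 3 Z`. -/
theorem exists_Z5 : ∃ Z : PowerSeries ℤ,
    TraceCases.sigSeries 5 = TraceCases.sigSeries 1 + 3 * Z := by
  have hdiv : ∀ n : ℕ, (3 : ℤ) ∣ ((ArithmeticFunction.sigma 5 n : ℕ) : ℤ) -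
      ((ArithmeticFunction.sigma 1 n : ℕ) : ℤ) := by
    intro n
    rw [TraceCases.sigma_cast, TraceCases.sigma_cast, ← Finset.sum_sub_distrib]
    refine Finset.dvd_sum fun d _ => ?_
    have := three_dvd_pow_five_sub (d : ℤ)
    simpa using this
  refine ⟨PowerSeries.mk fun n => (((ArithmeticFunction.sigma 5 n : ℕ) : ℤ) -
      ((ArithmeticFunction.sigma 1 n : ℕ) : ℤ)) / 3, ?_⟩
  ext n
  have e3 : (3 : PowerSeries ℤ) = C (3 : ℤ) := by simp
  rw [e3]
  simp only [map_add, PowerSeries.coeff_C_mul, TraceCases.coeff_sigSeries, PowerSeries.coeff_mk]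
  rw [Int.mul_ediv_cancel' (hdiv n)]
  ring

variable (R : Subring ℂ) {K : Type*} [Field K] (ρ : R →+* K)

theorem map_s5 (e : ℕ) : (s5 R e).map ρ = s5 K e := by
  rw [s5, s5, map_stretch]
  congr 1
  ext n
  simp [coeff_map]

theorem s5_eq_stretch_Sbar (h3 : (3 : K) = 0) (e : ℕ) : s5 K e = stretch e (SbarOf K) := by
  obtain ⟨Z, hZ⟩ := exists_Z5
  rw [s5, SbarOf, hZ, map_add, map_mul, map_three_eq_zero h3, zero_mul, add_zero]

theorem map_Aser (h3 : (3 : K) = 0) (e : ℕ) (u κ : R) (H : PowerSeries R) :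
    (Aser R e u κ H).map ρ = C (ρ κ) - stretch e (SbarOf K) := by
  have h3' : (3 : PowerSeries K) = 0 := by rw [ofNat_eq_C 3, h3, map_zero]
  rw [Aser]
  simp only [map_add, map_mul, map_pow, map_ofNat, PowerSeries.map_C, map_s5,
    s5_eq_stretch_Sbar h3]
  linear_combination (C (ρ u) ^ 3 * ((map ρ) H + 9 * (map ρ) H ^ 2 + 27 * (map ρ) H ^ 3)
    + 19 * stretch e (SbarOf K)) * h3'

/-- a series `P` with `P ≡ u mod 9 u` coefficientwise (in `R`) is `u (1 + 9 H)`, `H ∈ R[[t]]` -/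
theorem exists_eq_mul_one_add_nine (P : PowerSeries ℂ) (u : R) (hu : (u : ℂ) ≠ 0)
    (h : ∀ n, (coeff n P - if n = 0 then (u : ℂ) else 0) / (9 * (u : ℂ)) ∈ R) :
    ∃ H : PowerSeries R, P = C (u : ℂ) * (1 + 9 * H.map R.subtype) := by
  refine ⟨PowerSeries.mk fun n => ⟨_, h n⟩, ?_⟩
  ext n
  have h9 : (9 : PowerSeries ℂ) = C (9 : ℂ) := ofNat_eq_C 9
  rw [coeff_C_mul, map_add, h9, coeff_C_mul, coeff_map, coeff_mk, coeff_one]
  simp only [Subring.subtype_apply]
  split_ifs
  · field_simp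
    ring
  · field_simp
    ring

end Reduction

/-! ### The final theorem -/

/-- **U3b** (zeta-ring norm route): for a prime `p ≡ 2 mod 3` there is no `G ∈ M₂(Γ₀(p))` with
integral constant term prime to `3` and all higher coefficients in `9ℤ`. -/
theorem noConstInt_three_two_zeta (p : ℕ) [hp : Fact p.Prime] (h2 : p % 3 = 2) :
    Fermat.Agent.S16.NoConstInt p 3 2 := by
  rintro ⟨G, ⟨c₀, hc₀, h0⟩, hk⟩
  have : NeZero p := ⟨hp.out.ne_zero⟩
  have hp0 : (p : ℂ) ≠ 0 := by exact_mod_cast hp.out.ne_zero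
  have hc₀' : ¬ (3 : ℤ) ∣ c₀ := by simpa using hc₀
  have hc0 : (c₀ : ℂ) ≠ 0 := by
    have : c₀ ≠ 0 := fun h => hc₀' (by rw [h]; exact dvd_zero _)
    exact_mod_cast this
  have hp3 : ¬ 3 ∣ p := by omega
  -- the residue field
  obtain ⟨M, hM, h3M⟩ := exists_maximal_three
  have := hM
  let _ : Field (threeRing ⧸ M) := Ideal.Quotient.field M
  set ρ : threeRing →+* (threeRing ⧸ M) := Ideal.Quotient.mk M with hρ
  have h3 : (3 : threeRing ⧸ M) = 0 := by
    have : ρ 3 = 0 := Ideal.Quotient.eq_zero_iff_mem.mpr h3M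
    rwa [map_ofNat] at this
  -- the normalised form
  set G' : ModularForm (Gamma0 p) 2 := ((c₀ : ℂ))⁻¹ • G with hG'
  have hIs : Conj.Expand.IsG0 p 2 (⇑G' : ℍ → ℂ) := Conj.Expand.IsG0.of_modularForm G'
  have ha0 : (qExpansion 1 (⇑G' : ℍ → ℂ)).coeff 0 = 1 := by
    rw [hG', coeff_qExp_smul, h0, inv_mul_cancel₀ hc0]
  have hak : ∀ k : ℕ, 1 ≤ k → ∃ c : ℤ,
      (qExpansion 1 (⇑G' : ℍ → ℂ)).coeff k = 9 * ((c : ℂ) * ((c₀ : ℂ))⁻¹) := by
    intro k hk1
    obtain ⟨c, hc⟩ := hk k hk1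
    refine ⟨c, ?_⟩
    rw [hG', coeff_qExp_smul, hc]
    push_cast
    ring
  have hcinv : ((c₀ : ℂ))⁻¹ ∈ threeRing := inv_intCast_mem_threeRing hc₀'
  have hpinv : ((p : ℂ))⁻¹ ∈ threeRing := inv_natCast_mem_threeRing hp3
  have hzeta : Conj.Expand.zeta p ∈ threeRing :=
    mem_threeRing_of_pow_eq_one hp.out.pos (Conj.Expand.zeta_pow_self p)
  -- the conjugates
  set g : Conj.Idx p → ℍ → ℂ := fun x => Conj.conj 2 p (⇑G' : ℍ → ℂ) x with hg
  have hgP : ∀ x, IsPuiseux p (g x) := fun x =>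
    isPuiseux_of_periodic (Conj.Expand.mdiff_conj hIs.mdiff x) (hIs.isBoundedAtImInfty_conj x)
      (hIs.periodic_conj x)
  -- the units `u x` and the constants `κ x`
  let u₁ : threeRing := ⟨-((p : ℂ))⁻¹, threeRing.neg_mem hpinv⟩
  obtain ⟨t, ht⟩ : ∃ t : ℕ, p ^ 3 + 1 = 9 * t := by
    have h9 : (p ^ 3 + 1) % 9 = 0 := by
      have h1 : p % 9 = 2 ∨ p % 9 = 5 ∨ p % 9 = 8 := by omega
      rcases h1 with h1 | h1 | h1 <;> simp [Nat.add_mod, Nat.pow_mod, h1]
    exact ⟨(p ^ 3 + 1) / 9, by omega⟩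
  let κ₁ : threeRing := ⟨-((t : ℂ) * ((p : ℂ))⁻¹ ^ 3),
    threeRing.neg_mem (threeRing.mul_mem (natCast_mem threeRing t) (threeRing.pow_mem hpinv 3))⟩
  let uu : Conj.Idx p → threeRing := fun x => x.elim 1 (fun _ => u₁)
  let κκ : Conj.Idx p → threeRing := fun x => x.elim 0 (fun _ => κ₁)
  have huu0 : ∀ x, ((uu x : threeRing) : ℂ) ≠ 0 := by
    intro x
    cases x with
    | none => simp [uu]
    | some j =>
      simp only [uu, Option.elim_some, u₁]
      exact neg_ne_zero.mpr (inv_ne_zero hp0)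
  have hκκ : ∀ x, (9 : ℂ) * ((κκ x : threeRing) : ℂ) = ((uu x : threeRing) : ℂ) ^ 3 - 1 := by
    intro x
    cases x with
    | none => simp [uu, κκ]
    | some j =>
      simp only [uu, κκ, Option.elim_some, u₁, κ₁]
      have h1 : ((p : ℂ)) ^ 3 + 1 = 9 * (t : ℂ) := by exact_mod_cast ht
      field_simp
      linear_combination (1 : ℂ) * h1
  -- the series `H x`
  have hH : ∀ x, ∃ H : PowerSeries threeRing,
      qExpansion (p : ℝ) (g x) = C ((uu x : threeRing) : ℂ) * (1 + 9 * H.map threeRing.subtype) := by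
    intro x
    rw [hg]
    simp only
    rw [hIs.qExpansion_conj x]
    apply exists_eq_mul_one_add_nine threeRing _ (uu x) (huu0 x)
    intro n
    cases x with
    | none =>
      rw [Conj.Expand.coeff_expSer_none]
      simp only [uu, Option.elim_none, OneMemClass.coe_one, mul_one]
      by_cases hn : n = 0
      · subst hn
        simp only [dvd_zero, if_true, Nat.zero_div]
        rw [ha0]
        simp
      · rw [if_neg hn, sub_zero]
        split_ifs with hd
        · obtain ⟨m, rfl⟩ := hd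
          have hm : 1 ≤ m := by
            rcases Nat.eq_zero_or_pos m with h | h
            · subst h; simp at hn
            · exact h
          rw [Nat.mul_div_cancel_left m hp.out.pos]
          obtain ⟨c, hc⟩ := hak m hm
          rw [hc, mul_div_cancel_left₀ _ (by norm_num : (9 : ℂ) ≠ 0)]
          exact threeRing.mul_mem (intCast_mem threeRing c) hcinv
        · rw [zero_div]; exact threeRing.zero_mem
    | some j =>
      rw [hIs.coeff_expSer_some]
      simp only [uu, Option.elim_some, u₁]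
      by_cases hn : n = 0
      · subst hn
        rw [if_pos rfl]
        simp only [mul_zero, pow_zero, one_mul]
        rw [ha0]
        have : (-(1 / (p : ℂ)) - -((p : ℂ))⁻¹) / (9 * -((p : ℂ))⁻¹) = 0 := by
          rw [one_div, sub_self, zero_div]
        rw [this]
        exact threeRing.zero_mem
      · rw [if_neg hn, sub_zero]
        have hm : 1 ≤ p * n := Nat.mul_pos hp.out.pos (Nat.pos_of_ne_zero hn)
        obtain ⟨c, hc⟩ := hak (p * n) hm
        rw [hc]
        have : -(Conj.Expand.zeta p ^ ((j : ℕ) * n) * (9 * ((c : ℂ) * ((c₀ : ℂ))⁻¹)) / (p : ℂ))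
            / (9 * -((p : ℂ))⁻¹)
            = Conj.Expand.zeta p ^ ((j : ℕ) * n) * ((c : ℂ) * ((c₀ : ℂ))⁻¹) := by
          field_simp
        rw [this]
        exact threeRing.mul_mem (threeRing.pow_mem hzeta _)
          (threeRing.mul_mem (intCast_mem threeRing c) hcinv)
  choose H hHx using hH
  -- apply the abstract theorem
  refine false_of_conjugates_three threeRing ρ h3 (ι := Conj.Idx p) p hp.out.pos
    (fun x => Phi (g x)) (fun x => isPuiseux_Phi (hgP x)) ?_
    (fun x => Aser threeRing p (uu x) (κκ x) (H x))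
    (fun x => qExpansion_Phi_eq threeRing hp.out.pos (hgP x) (uu x) (κκ x) (H x) (hHx x) (hκκ x))
    (-1) (ρ κ₁) (neg_ne_zero.mpr one_ne_zero) p ?_
  · -- permutation law
    intro γ
    obtain ⟨σ, hσ⟩ := Conj.Expand.exists_perm_conj_slash hIs.inv γ
    refine ⟨σ, fun x z => Phi_smul γ z ?_⟩
    have := congrFun (hσ x) z
    rw [SL_slash_apply, zpow_neg] at this
    have hd : denom γ z ^ (2 : ℤ) ≠ 0 := zpow_ne_zero _ (denom_ne_zero γ z)
    simp only [hg]
    rw [← this]
    field_simp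
  · -- the product of the reductions
    have he : p ≠ 0 := hp.out.ne_zero
    simp only [map_Aser threeRing ρ h3]
    rw [Fintype.prod_option]
    simp only [κκ, Option.elim_none, Option.elim_some, map_zero, Finset.prod_const,
      Finset.card_univ, Fintype.card_fin]
    rw [stretch_mul' p he, stretch_pow' p he, stretch_add, stretch_C_mul, stretch_C' p he]
    simp only [map_neg, map_one]
    ring

end Fermat.Agent.S16.U3b.NormZeta
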